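import Fermat.Agent.LD8.Abs
import Fermat.Agent.LA3b.Ex
import Fermat.Agent.BaseChangeFF.Divisible

/-!
# Ramification in a cubic extension `X³ - X² + t` in characteristic three
-/

set_option autoImplicit false
set_option linter.unusedSectionVars false
set_option linter.style.haveILetI false
set_option maxHeartbeats 1000000

noncomputable section

open AlgebraicCurve Module IntermediateField

namespace Fermat.Agent.LA8

open Fermat.Agent.FunField Fermat.Agent.FunField.PlaceLemmas Fermat.Agent.HeckeRed

section Norm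

variable {F F' : Type*} [Field F] [Field F'] [Algebra F F'] [FiniteDimensional F F']

theorem norm_of_cubic (h3 : finrank F F' = 3) {x : F'} (hgen : F⟮x⟯ = ⊤)
    {Q : Polynomial F} (hQ : Q.Monic) (hd : Q.natDegree = 3) (hx : Polynomial.aeval x Q = 0) :
    Algebra.norm F x = -Q.coeff 0 := by
  have hint : IsIntegral F x := IsIntegral.of_finite F x
  have hdeg : (minpoly F x).natDegree = 3 := by
    rw [← IntermediateField.adjoin.finrank hint, hgen, IntermediateField.finrank_top', h3]
  have hmin : minpoly F x = Q := by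
    have h1 : minpoly F x ∣ Q := minpoly.dvd F x hx
    exact (Polynomial.eq_of_monic_of_dvd_of_natDegree_le (minpoly.monic hint) hQ h1
      (by rw [hd, hdeg])).symm
  have htop : Algebra.adjoin F {x} = ⊤ := by
    rw [← IntermediateField.adjoin_simple_toSubalgebra_of_isAlgebraic hint.isAlgebraic, hgen,
      IntermediateField.top_toSubalgebra]
  have h4 := Algebra.PowerBasis.norm_gen_eq_coeff_zero_minpoly (PowerBasis.ofAdjoinEqTop hint htop)
  rw [PowerBasis.ofAdjoinEqTop_gen, ← PowerBasis.natDegree_minpoly, PowerBasis.ofAdjoinEqTop_gen,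
    hdeg, hmin] at h4
  rw [h4]
  ring

end Norm

section Place

variable {κ F F' : Type*} [Field κ] [IsAlgClosed κ] [CharP κ 3] [Field F] [Field F']
  [Algebra κ F] [Algebra κ F'] [IsFF κ F] [IsFF κ F']

omit [Field F] [Field F'] [Algebra κ F] [Algebra κ F'] [IsFF κ F] [IsFF κ F'] in
/-- the two roots -/
theorem exists_two_roots (c₀ : κ) : ∃ c₁ c₂ : κ, c₁ ≠ c₂ ∧ c₁ ^ 3 - c₁ ^ 2 + c₀ = 0 ∧
    c₂ ^ 3 - c₂ ^ 2 + c₀ = 0 := by
  have h3 : (3 : κ) = 0 := by
    have := CharP.cast_eq_zero κ 3
    exact_mod_cast this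
  obtain ⟨c, hc⟩ : ∃ c : κ, c ^ 3 - c ^ 2 + c₀ = 0 := by
    have h : (Polynomial.X ^ 3 - Polynomial.X ^ 2 + Polynomial.C c₀ : Polynomial κ).degree ≠ 0 := by
      have : (Polynomial.X ^ 3 - Polynomial.X ^ 2 + Polynomial.C c₀ : Polynomial κ).degree = 3 := by
        compute_degree!
      rw [this]
      norm_num
    obtain ⟨c, hc⟩ := IsAlgClosed.exists_root _ h
    refine ⟨c, ?_⟩
    simpa [Polynomial.IsRoot] using hc
  obtain ⟨d, hd0, hd⟩ : ∃ d : κ, d ≠ 0 ∧ d ^ 2 - d + c = 0 := by
    by_cases hc0 : c = 0
    · exact ⟨1, one_ne_zero, by rw [hc0]; ring⟩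
    · have h : (Polynomial.X ^ 2 - Polynomial.X + Polynomial.C c : Polynomial κ).degree ≠ 0 := by
        have : (Polynomial.X ^ 2 - Polynomial.X + Polynomial.C c : Polynomial κ).degree = 2 := by
          compute_degree!
        rw [this]
        norm_num
      obtain ⟨d, hd⟩ := IsAlgClosed.exists_root _ h
      have hd' : d ^ 2 - d + c = 0 := by simpa [Polynomial.IsRoot] using hd
      refine ⟨d, ?_, hd'⟩
      rintro rfl
      apply hc0
      simpa using hd'
  refine ⟨c, c + d, ?_, hc, ?_⟩
  · intro h
    apply hd0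
    exact left_eq_add.mp h
  · linear_combination hc + d * hd + (c ^ 2 * d + c * d ^ 2 - c * d) * h3

/-- a place above with positive order -/
theorem exists_pos_of_push (φ : F →ₐ[κ] F') {D : Divisor κ F'} {v : Place κ F}
    (h : 0 < Degen.push φ D v) : ∃ w, Degen.res φ w = v ∧ 0 < D w := by
  classical
  by_contra hcon
  push Not at hcon
  rw [Degen.push_eq_mapDomain, Finsupp.mapDomain, Finsupp.sum_apply] at h
  refine absurd h (not_lt.mpr (Finset.sum_nonpos fun w _ => ?_))
  show (Finsupp.single (Degen.res φ w) (D w) : Divisor κ F) v ≤ 0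
  rw [Finsupp.single_apply]
  split_ifs with hw
  · exact hcon w hw
  · exact le_refl _

/-- uniqueness of the place above -/
theorem unique_of_dvd (φ : F →ₐ[κ] F') (h3 : finrankAlong κ φ = 3) {v : Place κ F}
    (hv : ∀ w, Degen.res φ w = v → 3 ∣ Place.ramificationIndexAlong φ w) {w₁ w₂ : Place κ F'}
    (h₁ : Degen.res φ w₁ = v) (h₂ : Degen.res φ w₂ = v) : w₁ = w₂ := by
  classical
  by_contra hne
  have hle : Finsupp.single w₁ (3 : ℤ) + Finsupp.single w₂ 3 ≤
      Degen.pull φ (Finsupp.single v (1 : ℤ)) := by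
    intro w
    have hp : ∀ w, Degen.res φ w = v → (3 : ℤ) ≤ Place.ramificationIndexAlong φ w := by
      intro w hw
      have h1 := Nat.le_of_dvd (Degen.ramificationIndexAlong_pos φ w) (hv w hw)
      exact_mod_cast h1
    rw [Finsupp.add_apply, Finsupp.single_apply, Finsupp.single_apply, Degen.pull_apply]
    by_cases e1 : w₁ = w
    · subst e1
      rw [if_pos rfl, if_neg (Ne.symm hne), h₁, Finsupp.single_eq_same]
      have := hp w₁ h₁
      omega
    · rw [if_neg e1]
      by_cases e2 : w₂ = w
      · subst e2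
        rw [if_pos rfl, h₂, Finsupp.single_eq_same]
        have := hp w₂ h₂
        omega
      · rw [if_neg e2]
        have h0 : (0 : ℤ) ≤ (Finsupp.single v (1 : ℤ) : Divisor κ F) (Degen.res φ w) := by
          rw [Finsupp.single_apply]
          split_ifs <;> norm_num
        simpa using mul_nonneg (Int.natCast_nonneg (Place.ramificationIndexAlong φ w)) h0
  have h5 := degree_mono hle
  rw [Degen.degree_pull, map_add, Divisor.degree_single, Divisor.degree_single,
    Divisor.degree_single, Deuring.deg_eq_one, Deuring.deg_eq_one, Deuring.deg_eq_one, h3] at h5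
  norm_num at h5

theorem not_both_pos {w : Place κ F'} {a b : F'} {c : κ} (hc : c ≠ 0)
    (h : a - b = algebraMap κ F' c) (ha : 0 < w.ord a) (hb : 0 < w.ord b) : False := by
  have ha0 : a ≠ 0 := by
    rintro rfl; rw [Place.ord_zero] at ha; exact absurd ha (lt_irrefl _)
  have hb0 : b ≠ 0 := by
    rintro rfl; rw [Place.ord_zero] at hb; exact absurd hb (lt_irrefl _)
  have hne : a + -b ≠ 0 := by
    rw [← sub_eq_add_neg, h, Ne, map_eq_zero]
    exact hc
  have h6 := min_ord_le_ord_add w ha0 (neg_ne_zero.mpr hb0) hne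
  rw [ord_neg, ← sub_eq_add_neg, h, ord_algebraMap] at h6
  exact absurd h6 (not_le.mpr (lt_min ha hb))

/-- **places of a cubic extension** -/
theorem not_forall_dvd (φ : F →ₐ[κ] F') (h3 : finrankAlong κ φ = 3) {t : F}
    (ht : Transcendental κ t) {η : F'} (hη : η ^ 3 - η ^ 2 + φ t = 0)
    (hgen : ∀ S : Subfield F', (∀ x, φ x ∈ S) → η ∈ S → S = ⊤) (v : Place κ F)
    (hv : 0 ≤ v.ord t)
    (hdvd : ∀ w, Degen.res φ w = v → 3 ∣ Place.ramificationIndexAlong φ w) : False := by
  obtain ⟨c₀, hc₀⟩ := BaseChangeFF.exists_value v t hv ht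
  obtain ⟨c₁, c₂, hne, h₁, h₂⟩ := exists_two_roots c₀
  -- the norm of `η - c`
  have key : ∀ c : κ, c ^ 3 - c ^ 2 + c₀ = 0 → ∃ w, Degen.res φ w = v ∧
      0 < w.ord (η - algebraMap κ F' c) := by
    intro c hc
    have hx0 : η - algebraMap κ F' c ≠ 0 := by
      intro h0
      have h1 : η = algebraMap κ F' c := sub_eq_zero.mp h0
      have h2 : φ t = φ (algebraMap κ F (c ^ 2 - c ^ 3)) := by
        rw [AlgHom.commutes, map_sub, map_pow, map_pow, ← h1]
        linear_combination hη
      have h3 := φ.toRingHom.injective h2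
      exact ht (by rw [h3]; exact isAlgebraic_algebraMap _)
    have hnorm : normAlong φ (η - algebraMap κ F' c) = algebraMap κ F c₀ - t := by
      letI := algebraAlong φ
      haveI := isScalarTower_along φ
      haveI : Module.Finite F F' := finiteAlong_of_isFF φ
      have e1 : ∀ z : F, algebraMap F F' z = φ z := fun z => rfl
      have ec : algebraMap κ F' c = algebraMap F F' (algebraMap κ F c) := by
        rw [e1, AlgHom.commutes]
      show Algebra.norm F (η - algebraMap κ F' c) = _
      let Q : Polynomial F := (Polynomial.X + Polynomial.C (algebraMap κ F c)) ^ 3 -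
        (Polynomial.X + Polynomial.C (algebraMap κ F c)) ^ 2 + Polynomial.C t
      have hQd : Q.natDegree = 3 := by
        show ((Polynomial.X + Polynomial.C (algebraMap κ F c)) ^ 3 -
          (Polynomial.X + Polynomial.C (algebraMap κ F c)) ^ 2 + Polynomial.C t).natDegree = 3
        compute_degree!
      have hQm : Q.Monic := by
        show ((Polynomial.X + Polynomial.C (algebraMap κ F c)) ^ 3 -
          (Polynomial.X + Polynomial.C (algebraMap κ F c)) ^ 2 + Polynomial.C t).Monic
        monicity!
      have hQx : Polynomial.aeval (η - algebraMap κ F' c) Q = 0 := by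
        simp only [Q, map_add, map_sub, map_pow, Polynomial.aeval_X, Polynomial.aeval_C]
        rw [ec, e1, e1, sub_add_cancel]
        exact hη
      have htop : F⟮η - algebraMap κ F' c⟯ = ⊤ := by
        have h5 := hgen (F⟮η - algebraMap κ F' c⟯).toSubfield
          (fun x => (F⟮η - algebraMap κ F' c⟯).algebraMap_mem x) (by
            have h6 := add_mem (IntermediateField.mem_adjoin_simple_self F
              (η - algebraMap κ F' c)) ((F⟮η - algebraMap κ F' c⟯).algebraMap_mem
                (algebraMap κ F c))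
            rw [← ec, sub_add_cancel] at h6
            exact h6)
        refine SetLike.ext fun y => ⟨fun _ => IntermediateField.mem_top, fun _ => ?_⟩
        have h7 : y ∈ (F⟮η - algebraMap κ F' c⟯).toSubfield := by
          rw [h5]
          exact Subfield.mem_top y
        exact h7
      rw [norm_of_cubic h3 htop hQm hQd hQx]
      simp only [Q, Polynomial.coeff_zero_eq_eval_zero, Polynomial.eval_add, Polynomial.eval_sub,
        Polynomial.eval_pow, Polynomial.eval_X, Polynomial.eval_C, zero_add]
      have h8 : algebraMap κ F (c ^ 3 - c ^ 2 + c₀) = 0 := by rw [hc, map_zero]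
      rw [map_add, map_sub, map_pow, map_pow] at h8
      linear_combination -h8
    have h9 := Degen.push_divOf φ hx0
    have h10 : 0 < Degen.push φ (divOf (η - algebraMap κ F' c)) v := by
      rw [h9, hnorm, divOf_apply, ← neg_sub, ord_neg]
      exact hc₀
    obtain ⟨w, hw1, hw2⟩ := exists_pos_of_push φ h10
    exact ⟨w, hw1, by rwa [divOf_apply] at hw2⟩
  obtain ⟨w₁, hw₁, h1⟩ := key c₁ h₁
  obtain ⟨w₂, hw₂, h2⟩ := key c₂ h₂
  obtain rfl := unique_of_dvd φ h3 hdvd hw₁ hw₂
  exact not_both_pos (sub_ne_zero.mpr hne.symm) (by rw [map_sub]; ring) h1 h2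

end Place

end Fermat.Agent.LA8

end
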