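import Fermat.Agent.LU1.Series
import Fermat.Agent.LA3b.UL
import Fermat.Agent.MzCusp.Places
import Fermat.Agent.BadRed.CPPole

/-!
# The modular equation of level two in characteristic three: `j³ + j(q²)³ = j² j(q²)²`
-/

set_option autoImplicit false
set_option linter.unusedSectionVars false
set_option maxHeartbeats 1000000
set_option synthInstance.maxHeartbeats 400000

noncomputable section

open HahnSeries ModularCurve AlgebraicCurve

namespace Fermat.Agent.LA8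

open Fermat.Agent.MzCusp Fermat.Agent.LU1 Fermat.Agent.FunField Fermat.Agent.FunField.PlaceLemmas
open Fermat.Agent.ModPoly Fermat.Agent.BadRed.CP

theorem etaProd_eq : ∃ R : PowerSeries ℤ, etaProd =
    1 - PowerSeries.X - PowerSeries.X ^ 2 + PowerSeries.X ^ 3 * R := by
  have h : PowerSeries.X ^ 3 ∣ etaProd - (1 - PowerSeries.X - PowerSeries.X ^ 2) := by
    rw [PowerSeries.X_pow_dvd_iff]
    intro m hm
    rw [etaProd_eq_pentagonal]
    have e0 : (PowerSeries.coeff 0) (PowerSeries.pentagonalSeries ℤ) = 1 := by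
      have := PowerSeries.coeff_pentagonalSeries_pentagonal ℤ 0
      rw [show pentagonal 0 = 0 from rfl] at this
      rw [this]
      rfl
    have e1 : (PowerSeries.coeff 1) (PowerSeries.pentagonalSeries ℤ) = -1 := by
      have := PowerSeries.coeff_pentagonalSeries_pentagonal ℤ 1
      rw [show pentagonal 1 = 1 from rfl] at this
      rw [this]
      rfl
    have e2 : (PowerSeries.coeff 2) (PowerSeries.pentagonalSeries ℤ) = -1 := by
      have := PowerSeries.coeff_pentagonalSeries_pentagonal ℤ (-1)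
      rw [show pentagonal (-1) = 2 from rfl] at this
      rw [this]
      rfl
    interval_cases m
    · rw [map_sub, e0]
      simp
    · rw [map_sub, e1]
      simp [PowerSeries.coeff_X_pow, PowerSeries.coeff_one]
    · rw [map_sub, e2]
      simp [PowerSeries.coeff_X, PowerSeries.coeff_X_pow, PowerSeries.coeff_one]
  obtain ⟨R, hR⟩ := h
  exact ⟨R, by rw [← hR]; ring⟩

section Reg

variable (κ : Type*) [Field κ]

/-- the uniformiser -/
def qq : LaurentSeries κ := HahnSeries.single (1 : ℤ) 1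

theorem order_qq : (qq κ).order = 1 := HahnSeries.order_single one_ne_zero

theorem qq_ne_zero : qq κ ≠ 0 := HahnSeries.single_ne_zero one_ne_zero

theorem order_qq_pow (n : ℕ) : (qq κ ^ n).order = n := by
  rw [HahnSeries.order_pow, order_qq, nsmul_eq_mul, mul_one]

/-- integral Laurent series -/
def S0 : Subring (LaurentSeries κ) where
  carrier := {f | PB 0 f}
  mul_mem' := fun hf hg => by
    have := PB.mul hf hg
    rwa [add_zero] at this
  add_mem' := fun hf hg => PB.add hf hg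
  neg_mem' := fun hf => PB.neg hf
  zero_mem' := PB_zero 0
  one_mem' := fun _ => by rw [HahnSeries.order_one]; simp

variable {κ}

theorem mem_S0 {f : LaurentSeries κ} : f ∈ S0 κ ↔ (f ≠ 0 → 0 ≤ f.order) := by
  show PB 0 f ↔ _
  rw [PB, neg_zero]

theorem qq_mem : qq κ ∈ S0 κ := mem_S0.mpr fun _ => by rw [order_qq]; norm_num

theorem ofPowerSeries_mem (P : PowerSeries κ) : HahnSeries.ofPowerSeries ℤ κ P ∈ S0 κ := by
  rw [mem_S0]
  intro hne
  by_contra hcon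
  exact HahnSeries.coeff_order_eq_zero.not.mpr hne
    (ofPowerSeries_coeff_of_neg P (not_le.mp hcon))

theorem qExpand_mem (n : ℕ) [NeZero n] {f : LaurentSeries κ} (hf : f ∈ S0 κ) :
    qExpand κ n f ∈ S0 κ := by
  rw [mem_S0] at hf ⊢
  intro hne
  rw [order_qExpand]
  refine mul_nonneg (Int.natCast_nonneg _) (hf ?_)
  rintro rfl
  exact hne (map_zero _)

theorem qExpand_qq (n : ℕ) [NeZero n] : qExpand κ n (qq κ) = qq κ ^ n := by
  rw [qq, qExpand_single, HahnSeries.single_pow, one_pow, nsmul_eq_mul]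

/-- the Euler product -/
theorem etaL_eq : ∃ r ∈ S0 κ, etaL κ = 1 - qq κ - qq κ ^ 2 + qq κ ^ 3 * r := by
  obtain ⟨R, hR⟩ := etaProd_eq
  refine ⟨HahnSeries.ofPowerSeries ℤ κ (R.map (Int.castRingHom κ)), ofPowerSeries_mem _, ?_⟩
  rw [etaL, hR]
  simp only [map_sub, map_add, map_mul, map_pow, map_one, PowerSeries.map_X,
    HahnSeries.ofPowerSeries_X]
  rfl

variable [CharP κ 3]

theorem three_eq_zero : (3 : LaurentSeries κ) = 0 := by
  have h : (3 : κ) = 0 := by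
    have := CharP.cast_eq_zero κ 3
    exact_mod_cast this
  have h1 : (3 : LaurentSeries κ) = algebraMap κ (LaurentSeries κ) 3 := by
    rw [map_ofNat]
  rw [h1, h, map_zero]

/-- `∏ (1 - qⁿ)⁸` -/
theorem etaL_pow_eq : ∃ S ∈ S0 κ, etaL κ ^ 8 = 1 + qq κ - qq κ ^ 2 + qq κ ^ 3 * S := by
  obtain ⟨r, hr, e⟩ := etaL_eq (κ := κ)
  let q' : S0 κ := ⟨qq κ, qq_mem⟩
  let r' : S0 κ := ⟨r, hr⟩
  let z : S0 κ := 1 - q' * r'
  let y : S0 κ := 1 + q' * z
  let S : S0 κ := 8 * r' + 28 * (2 * z + q' * z ^ 2) - (56 * y ^ 3 - 70 * q' * y ^ 4 +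
    56 * q' ^ 2 * y ^ 5 - 28 * q' ^ 3 * y ^ 6 + 8 * q' ^ 4 * y ^ 7 - q' ^ 5 * y ^ 8)
  refine ⟨S, S.2, ?_⟩
  rw [e]
  have h3 := three_eq_zero (κ := κ)
  have eS : (S : LaurentSeries κ) = 8 * r + 28 * (2 * (1 - qq κ * r) + qq κ * (1 - qq κ * r) ^ 2) -
    (56 * (1 + qq κ * (1 - qq κ * r)) ^ 3 - 70 * qq κ * (1 + qq κ * (1 - qq κ * r)) ^ 4 +
    56 * qq κ ^ 2 * (1 + qq κ * (1 - qq κ * r)) ^ 5 -
    28 * qq κ ^ 3 * (1 + qq κ * (1 - qq κ * r)) ^ 6 +
    8 * qq κ ^ 4 * (1 + qq κ * (1 - qq κ * r)) ^ 7 -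
    qq κ ^ 5 * (1 + qq κ * (1 - qq κ * r)) ^ 8) := rfl
  rw [eS]
  generalize qq κ = q at *
  linear_combination (-3 * q + 7 * q ^ 2) * h3

/-- `Δ` -/
theorem deltaL_three : ∃ S ∈ S0 κ, deltaL κ = qq κ * (1 + qq κ ^ 3 - qq κ ^ 6 + qq κ ^ 9 * S) := by
  have h3' : Fact (Nat.Prime 3) := ⟨Nat.prime_three⟩
  obtain ⟨S, hS, e⟩ := etaL_pow_eq (κ := κ)
  refine ⟨qExpand κ 3 S, qExpand_mem 3 hS, ?_⟩
  have h1 : etaL κ ^ 24 = qExpand κ 3 (etaL κ ^ 8) := by
    rw [map_pow, BadRed.qExpand_eq_pow κ 3 (etaL ℤ) (coeffMap_etaL _).symm]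
    ring
  have h5 : deltaL κ = qq κ * etaL κ ^ 24 := LU1.deltaL_eq κ
  have h6 : qExpand κ 3 (1 + qq κ - qq κ ^ 2 + qq κ ^ 3 * S) =
      1 + qq κ ^ 3 - (qq κ ^ 3) ^ 2 + (qq κ ^ 3) ^ 3 * qExpand κ 3 S := by
    rw [map_add, map_sub, map_add, map_mul, map_pow, map_pow, (qExpand κ 3).map_one, qExpand_qq]
  rw [h5, h1, e, h6]
  ring

/-- the numerator of the modular equation -/
theorem num_eq : ∃ W ∈ S0 κ, deltaL κ ^ 3 + qExpand κ 2 (deltaL κ) ^ 3 -
    deltaL κ * qExpand κ 2 (deltaL κ) = qq κ ^ 12 * W := by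
  obtain ⟨S, hS, e⟩ := deltaL_three (κ := κ)
  have hT := qExpand_mem 2 hS
  have e2 : qExpand κ 2 (deltaL κ) = qq κ ^ 2 * (1 + qq κ ^ 6 - qq κ ^ 12 +
      qq κ ^ 18 * qExpand κ 2 S) := by
    rw [e, map_mul, map_add, map_sub, map_add, map_mul, map_pow, map_pow, map_pow, map_one,
      qExpand_qq]
    ring
  generalize qExpand κ 2 S = T at e2 hT
  let q' : S0 κ := ⟨qq κ, qq_mem⟩
  let S' : S0 κ := ⟨S, hS⟩
  let T' : S0 κ := ⟨T, hT⟩
  let W : S0 κ := (1 - q' ^ 9 + q' ^ 18 * S' ^ 3) + q' ^ 12 * (1 - q' ^ 18 + q' ^ 36 * T' ^ 3) -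
    (1 - q' ^ 3 + S' * (1 + q' ^ 6 + q' ^ 12 * (-1 + q' ^ 6 * T')) +
      (-1 + q' ^ 6 * T') * q' ^ 3 * (1 + q' ^ 3 - q' ^ 6))
  refine ⟨W, W.2, ?_⟩
  have eW : (W : LaurentSeries κ) = (1 - qq κ ^ 9 + qq κ ^ 18 * S ^ 3) +
    qq κ ^ 12 * (1 - qq κ ^ 18 + qq κ ^ 36 * T ^ 3) -
    (1 - qq κ ^ 3 + S * (1 + qq κ ^ 6 + qq κ ^ 12 * (-1 + qq κ ^ 6 * T)) +
      (-1 + qq κ ^ 6 * T) * qq κ ^ 3 * (1 + qq κ ^ 3 - qq κ ^ 6)) := rfl
  rw [eW, e2, e]
  have h3 := three_eq_zero (κ := κ)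
  have frob : ∀ a b : LaurentSeries κ, (a + b) ^ 3 = a ^ 3 + b ^ 3 := fun a b => by
    linear_combination (a ^ 2 * b + a * b ^ 2) * h3
  have frob' : ∀ a b : LaurentSeries κ, (a - b) ^ 3 = a ^ 3 - b ^ 3 := fun a b => by
    linear_combination (a * b ^ 2 - a ^ 2 * b) * h3
  rw [mul_pow, mul_pow, frob, frob, frob', frob', frob, frob]
  ring

/-- the order of the modular equation -/
theorem order_rel (h : qExpand κ 2 (jqModC κ) ^ 3 + jqModC κ ^ 3 -
    jqModC κ ^ 2 * qExpand κ 2 (jqModC κ) ^ 2 ≠ 0) :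
    3 ≤ (qExpand κ 2 (jqModC κ) ^ 3 + jqModC κ ^ 3 -
      jqModC κ ^ 2 * qExpand κ 2 (jqModC κ) ^ 2).order := by
  obtain ⟨W, hW, e⟩ := num_eq (κ := κ)
  have hj : jqModC κ * deltaL κ = 1 := by
    rw [LA3b.jqModC_eq_inv, mul_comm, deltaL_mul_inv]
  have hj2 : qExpand κ 2 (jqModC κ) * qExpand κ 2 (deltaL κ) = 1 := by
    rw [← map_mul, hj, map_one]
  have key : qExpand κ 2 (jqModC κ) ^ 3 + jqModC κ ^ 3 -
      jqModC κ ^ 2 * qExpand κ 2 (jqModC κ) ^ 2 =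
      (qq κ ^ 12 * W) * (jqModC κ ^ 3 * qExpand κ 2 (jqModC κ) ^ 3) := by
    rw [← e]
    have e1 : jqModC κ ^ 3 * deltaL κ ^ 3 = 1 := by rw [← mul_pow, hj, one_pow]
    have e2 : qExpand κ 2 (jqModC κ) ^ 3 * qExpand κ 2 (deltaL κ) ^ 3 = 1 := by
      rw [← mul_pow, hj2, one_pow]
    linear_combination (-qExpand κ 2 (jqModC κ) ^ 3) * e1 - (jqModC κ ^ 3) * e2 +
      (jqModC κ ^ 2 * qExpand κ 2 (jqModC κ) ^ 2) * (qExpand κ 2 (jqModC κ) *
        qExpand κ 2 (deltaL κ)) * hj + (jqModC κ ^ 2 * qExpand κ 2 (jqModC κ) ^ 2) * hj2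
  rw [key] at h ⊢
  have h1 := left_ne_zero_of_mul h
  have h2 := right_ne_zero_of_mul h
  have h3 := right_ne_zero_of_mul h1
  rw [HahnSeries.order_mul h1 h2, HahnSeries.order_mul (left_ne_zero_of_mul h1) h3,
    HahnSeries.order_mul (left_ne_zero_of_mul h2) (right_ne_zero_of_mul h2), order_qq_pow,
    HahnSeries.order_pow, HahnSeries.order_pow, order_qExpand, order_jqModC]
  have h4 := mem_S0.mp hW h3
  push_cast
  norm_num
  exact h4

variable (κ) in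
/-- **The modular equation of level two in characteristic three.** -/
theorem rel [IsAlgClosed κ] : qExpand κ 2 (jqModC κ) ^ 3 + jqModC κ ^ 3 =
    jqModC κ ^ 2 * qExpand κ 2 (jqModC κ) ^ 2 := by
  have hp : Fact (Nat.Prime 2) := ⟨Nat.prime_two⟩
  have hpK : ((2 : ℕ) : κ) ≠ 0 := by
    rw [Ne, CharP.cast_eq_zero_iff κ 3]
    norm_num
  by_contra hcon
  have hne : qExpand κ 2 (jqModC κ) ^ 3 + jqModC κ ^ 3 -
    jqModC κ ^ 2 * qExpand κ 2 (jqModC κ) ^ 2 ≠ 0 := sub_ne_zero.mpr hcon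
  have hord := order_rel hne
  -- the function
  let Z : modularFunctionFieldFullC κ 2 := jNF κ 2 ^ 3 + HeckeRed.jF κ 2 ^ 3 -
    HeckeRed.jF κ 2 ^ 2 * jNF κ 2 ^ 2
  have hZ : (Z : LaurentSeries κ) = qExpand κ 2 (jqModC κ) ^ 3 + jqModC κ ^ 3 -
    jqModC κ ^ 2 * qExpand κ 2 (jqModC κ) ^ 2 := rfl
  have hw : wp κ 2 hpK Z = Z := by
    simp only [Z, map_sub, map_add, map_mul, map_pow, wp_jF, wp_jNF]
    ring
  have hZ0 : Z ≠ 0 := by
    intro h
    exact hne (by rw [← hZ, h]; rfl)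
  have hpos : ∀ P : Place κ (modularFunctionFieldFullC κ 2), 0 ≤ P.ord Z := by
    intro P
    by_cases h1 : P.ord (HeckeRed.jF κ 2) < 0
    · rcases cusp_cases κ 2 hpK P h1 with rfl | rfl
      · rw [ord_cuspInf, hZ]; omega
      · rw [ord_cuspZero, hw, hZ]; omega
    by_cases h2 : P.ord (jNF κ 2) < 0
    · rcases cusp_cases' κ 2 hpK P h2 with rfl | rfl
      · rw [ord_cuspInf, hZ]; omega
      · rw [ord_cuspZero, hw, hZ]; omega
    have hjN0 : jNF κ 2 ≠ 0 := by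
      intro h
      have := ord_cuspInf_jNF κ 2
      rw [h, Place.ord_zero] at this
      norm_num at this
    have m1 : HeckeRed.jF κ 2 ∈ P.toValuationSubring :=
      (mem_iff_ord_nonneg P (jF_ne_zero κ 2)).mpr (not_lt.mp h1)
    have m2 : jNF κ 2 ∈ P.toValuationSubring :=
      (mem_iff_ord_nonneg P hjN0).mpr (not_lt.mp h2)
    refine (mem_iff_ord_nonneg P hZ0).mp ?_
    exact sub_mem (add_mem (pow_mem m2 3) (pow_mem m1 3)) (mul_mem (pow_mem m1 2) (pow_mem m2 2))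
  obtain ⟨c, hc⟩ := exists_eq_algebraMap_of_forall_ord_nonneg (K := κ) hpos
  have h3 : (cuspInf κ 2).ord Z = 0 := by
    rw [← hc]
    exact ord_algebraMap _ _
  rw [ord_cuspInf, hZ] at h3
  omega

end Reg

end Fermat.Agent.LA8

end
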