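import Fermat.Agent.LA8.Rel
import Fermat.Agent.LA8.Cubic
import Fermat.Agent.LD6.Deg
import Fermat.Agent.LA3b.HypA
import Fermat.Agent.Degen.Modular

/-!
# [A1]
-/

set_option autoImplicit false
set_option linter.unusedSectionVars false
set_option linter.style.haveILetI false
set_option maxHeartbeats 1000000
set_option synthInstance.maxHeartbeats 400000

noncomputable section

open AlgebraicCurve Module IntermediateField ModularCurve HahnSeries

attribute [-instance] Fermat.Agent.X0Places.ffField Fermat.Agent.X0Places.ffAlgebra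

namespace Fermat.Agent.LA8

open Fermat.Agent.FunField Fermat.Agent.FunField.PlaceLemmas Fermat.Agent.HeckeRed
open Fermat.Agent.ModDeg

section Deg

variable {K : Type*} [Field K] [IsAlgClosed K]

theorem finrankAlong_mul {M M' : ℕ} [NeZero M] [NeZero M'] (hM' : M ∣ M')
    (hK : ((M' : ℕ) : K) ≠ 0)
    (φ : modularFunctionFieldFullC K M →ₐ[K] modularFunctionFieldFullC K M')
    (hφ : ∀ x, (φ x : LaurentSeries K) = x) :
    dedekindPsi M * finrankAlong K φ = dedekindPsi M' := by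
  have hMK : ((M : ℕ) : K) ≠ 0 := by
    intro h
    obtain ⟨c, rfl⟩ := hM'
    exact hK (by rw [Nat.cast_mul, h, zero_mul])
  have h3 := IntermediateField.relfinrank_mul_relfinrank
    (adjoin_jq_le_full (K := K) M) (full_degeneracyC_le K hM')
  rw [relfinrank_full_of_isAlgClosed M hMK, relfinrank_full_of_isAlgClosed M' hK] at h3
  rw [finrankAlong_eq_relfinrank φ (modularFunctionFieldFullC K M)
    (fun y => ⟨fun hy => ⟨⟨y, hy⟩, hφ _⟩, by rintro ⟨x, rfl⟩; rw [hφ]; exact x.2⟩)]
  exact h3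

end Deg

section Ram

variable {κ F F' : Type*} [Field κ] [IsAlgClosed κ] [Field F] [Field F']
  [Algebra κ F] [Algebra κ F'] [IsFF κ F] [IsFF κ F']

theorem ram_le (φ : F →ₐ[κ] F') (w : Place κ F') :
    Place.ramificationIndexAlong φ w ≤ finrankAlong κ φ := by
  classical
  have hle : Finsupp.single w (Place.ramificationIndexAlong φ w : ℤ) ≤
      Degen.pull φ (Finsupp.single (Degen.res φ w) (1 : ℤ)) := by
    intro w'
    rw [Degen.pull_apply, Finsupp.single_apply, Finsupp.single_apply]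
    by_cases e : w = w'
    · subst e
      simp
    · rw [if_neg e]
      split_ifs
      · simp
      · simp
  have h5 := degree_mono hle
  rw [Degen.degree_pull, Divisor.degree_single, Divisor.degree_single, Deuring.deg_eq_one,
    Deuring.deg_eq_one] at h5
  norm_num at h5
  exact h5

end Ram

variable (κ : Type*) [Field κ] [IsAlgClosed κ] [CharP κ 3]

/-- **[A1]** -/
theorem hypA1 {N : ℕ} [NeZero N] (h2 : ¬ 2 ∣ N) (h3 : ¬ 3 ∣ N) : LA3b.HypA1 κ N := by
  intro φ hφ v hv
  by_contra hcon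
  have i2 : Fact (Nat.Prime 2) := ⟨Nat.prime_two⟩
  have iN2 : NeZero (N * 2) := ⟨mul_ne_zero (NeZero.ne N) (by norm_num)⟩
  have iN4 : NeZero (N * 4) := ⟨mul_ne_zero (NeZero.ne N) (by norm_num)⟩
  have hcast : ∀ n : ℕ, ¬ 3 ∣ n → ((n : ℕ) : κ) ≠ 0 := fun n hn => by
    rwa [Ne, CharP.cast_eq_zero_iff κ 3]
  have h32 : ¬ 3 ∣ N * 2 := by
    intro h; rcases (Nat.Prime.dvd_mul Nat.prime_three).1 h with h | h
    · exact h3 h
    · omega
  have h34 : ¬ 3 ∣ N * 4 := by
    intro h; rcases (Nat.Prime.dvd_mul Nat.prime_three).1 h with h | h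
    · exact h3 h
    · omega
  -- the two steps
  let φ₁ : modularFunctionFieldFullC κ N →ₐ[κ] modularFunctionFieldFullC κ (N * 2) :=
    IntermediateField.inclusion (full_degeneracyC_le κ (Dvd.intro 2 rfl))
  let φ₂ : modularFunctionFieldFullC κ (N * 2) →ₐ[κ] modularFunctionFieldFullC κ (N * 4) :=
    IntermediateField.inclusion (full_degeneracyC_le κ (Dvd.intro 2 (by ring)))
  have hφ₁ : ∀ x, (φ₁ x : LaurentSeries κ) = x := fun _ => rfl
  have hφ₂ : ∀ x, (φ₂ x : LaurentSeries κ) = x := fun _ => rfl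
  have hcomp : φ = φ₂.comp φ₁ := AlgHom.ext fun x => Subtype.ext (hφ x)
  have d1 : finrankAlong κ φ₁ = 3 := by
    have h := finrankAlong_mul (Dvd.intro 2 rfl) (hcast _ h32) φ₁ hφ₁
    rw [psi_mul_prime_of_not_dvd Nat.prime_two h2, mul_comm] at h
    exact Nat.eq_of_mul_eq_mul_right (HeckeRed.dedekindPsi_pos N) (h.trans (by ring))
  have d2 : finrankAlong κ φ₂ = 2 := by
    have h := finrankAlong_mul (M' := N * 4) (Dvd.intro 2 (by ring)) (hcast _ h34) φ₂ hφ₂
    have h' : dedekindPsi (N * 4) = 2 * dedekindPsi (N * 2) := by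
      rw [show N * 4 = N * 2 * 2 by ring, psi_mul_prime_of_dvd (NeZero.ne _) Nat.prime_two
        (Dvd.intro_left N rfl)]
    rw [h', mul_comm] at h
    exact Nat.eq_of_mul_eq_mul_right (HeckeRed.dedekindPsi_pos (N * 2)) h
  -- the places of the first step
  have hv1 : ∀ w : Place κ (modularFunctionFieldFullC κ (N * 2)), Degen.res φ₁ w = v →
      3 ∣ Place.ramificationIndexAlong φ₁ w := by
    intro w hw
    obtain ⟨w', hw'⟩ := LA3b.exists_res_eq φ₂ w
    have h5 := hv w' (by rw [hcomp, ← Degen.res_res, hw', hw])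
    rw [hcomp, Degen.ramificationIndexAlong_comp, hw'] at h5
    refine ((Nat.Prime.dvd_mul Nat.prime_three).1 h5).resolve_left fun h6 => ?_
    have h7 := ram_le φ₂ w'
    have h8 := Degen.ramificationIndexAlong_pos φ₂ w'
    rw [d2] at h7
    have h9 := Nat.le_of_dvd h8 h6
    omega
  -- the cubic equation
  have hvj : vj κ 2 = qExpand κ 2 (jqModC κ) := vj_eq κ 2
  have hmem : qExpand κ 2 (jqModC κ) ∈ modularFunctionFieldFullC κ (N * 2) := by
    rw [← hvj]
    exact vj_mem_full κ (by norm_num) (Dvd.intro_left N rfl)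
  let j2 : modularFunctionFieldFullC κ (N * 2) := ⟨_, hmem⟩
  have hj0 : HeckeRed.jF κ N ≠ 0 := MzCusp.jF_ne_zero κ N
  have hjj : jqModC κ ≠ 0 := fun h => hj0 (Subtype.ext h)
  have htr := HeckeRed.transcendental_jF (K := κ) N
  refine not_forall_dvd φ₁ d1 (t := (HeckeRed.jF κ N ^ 3)⁻¹) ?_
    (η := j2 / φ₁ (HeckeRed.jF κ N) ^ 2) ?_ ?_ v ?_ hv1
  · intro h
    exact htr.pow (by norm_num : 0 < 3) (by simpa using h.inv)
  · apply Subtype.ext
    have h := rel κ
    show (qExpand κ 2 (jqModC κ) / jqModC κ ^ 2) ^ 3 - (qExpand κ 2 (jqModC κ) / jqModC κ ^ 2) ^ 2 +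
      (jqModC κ ^ 3)⁻¹ = 0
    field_simp
    linear_combination h
  · intro S hS hη
    refine Degen.gen_alpha (K := κ) (M := N) (ℓ := 2) (hcast N h3) (hcast 2 (by norm_num)) h2
      (d := 1) (one_dvd N) S (fun x hx h => hS ⟨x, hx⟩) (fun h => ?_)
    have h5 := mul_mem hη (pow_mem (hS (HeckeRed.jF κ N)) 2)
    rw [div_mul_cancel₀ _ (pow_ne_zero 2 (by rwa [Ne, map_eq_zero]))] at h5
    have h6 : (⟨vj κ (1 * 2), h⟩ : modularFunctionFieldFullC κ (N * 2)) = j2 :=
      Subtype.ext (show vj κ (1 * 2) = _ by rw [one_mul]; exact hvj)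
    rw [h6]
    exact h5
  · rw [Place.ord_inv, ord_pow]
    have : v.ord (HeckeRed.jF κ N) ≤ 0 := not_lt.mp hcon
    push_cast
    linarith

end Fermat.Agent.LA8

end
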